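/-
S24, level-one analytic package (helper78), part 1: limits at `i∞`.
* Cauchy estimates on the upper half plane: the normalized derivative of a holomorphic function
  with a limit at `i∞` tends to `0` at `i∞`.
* `E₂, E₄, E₆ → 1` at `i∞`.
-/
import Mathlib

set_option autoImplicit false

namespace Fermat.Agent.S24.H78

open UpperHalfPlane ModularForm Filter Topology Matrix.SpecialLinearGroup EisensteinSeries
open scoped MatrixGroups Manifold ModularForm
open Derivative

/-- Cauchy estimate on the upper half plane: a bound for `G` on `{A ≤ im}` bounds the derivative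
on `{max A 1 + 1 ≤ im}`. -/
theorem norm_deriv_le_of_im_ge {G : ℍ → ℂ} (hG : MDiff G) {M A : ℝ}
    (h : ∀ z : ℍ, A ≤ z.im → ‖G z‖ ≤ M) (z : ℍ) (hz : max A 1 + 1 ≤ z.im) :
    ‖deriv (G ∘ ofComplex) z‖ ≤ M := by
  have hdiff : DifferentiableOn ℂ (G ∘ ofComplex) {w | 0 < w.im} :=
    UpperHalfPlane.mdifferentiable_iff.mp hG
  have hball : ∀ w ∈ Metric.closedBall (z : ℂ) 1, max A 1 ≤ w.im := by
    intro w hw
    rw [Metric.mem_closedBall, Complex.dist_eq] at hw
    have h1 : |(w - (z : ℂ)).im| ≤ ‖w - (z : ℂ)‖ := Complex.abs_im_le_norm _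
    have h2 : |w.im - z.im| ≤ 1 := by
      simpa using h1.trans hw
    have h3 := (abs_le.mp h2).1
    linarith
  have h1 : ‖deriv (G ∘ ofComplex) z‖ ≤ M / 1 := by
    apply Complex.norm_deriv_le_of_forall_mem_sphere_norm_le one_pos
    · refine DifferentiableOn.diffContOnCl_ball (U := {w : ℂ | 0 < w.im}) hdiff ?_
      intro w hw
      have := hball w hw
      have h1 : (1 : ℝ) ≤ max A 1 := le_max_right _ _
      show 0 < w.im
      linarith
    · intro w hw
      have hw' := hball w (Metric.sphere_subset_closedBall hw)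
      have h1 : (1 : ℝ) ≤ max A 1 := le_max_right _ _
      have him : 0 < w.im := by linarith
      have := h ⟨w, him⟩ (by
        show A ≤ w.im
        exact (le_max_left _ _).trans hw')
      simpa [Function.comp, ofComplex_apply_of_im_pos him] using this
  rwa [div_one] at h1

/-- The normalized derivative of a holomorphic function with a limit at `i∞` tends to `0`. -/
theorem tendsto_normalizedDeriv_zero {F : ℍ → ℂ} (hF : MDiff F) {c : ℂ}
    (hc : Tendsto F atImInfty (𝓝 c)) : Tendsto (D F) atImInfty (𝓝 0) := by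
  rw [Metric.tendsto_nhds]
  intro ε hε
  set C : ℝ := ‖(2 * (Real.pi : ℂ) * Complex.I)⁻¹‖ with hC
  have hCnn : 0 ≤ C := norm_nonneg _
  set δ : ℝ := ε / (2 * (C + 1)) with hδ
  have hδpos : 0 < δ := by positivity
  have h1 : ∀ᶠ z in atImInfty, ‖F z - c‖ ≤ δ := by
    have := (Metric.tendsto_nhds.mp hc) δ hδpos
    filter_upwards [this] with z hz
    rw [dist_eq_norm] at hz
    exact hz.le
  rw [Filter.eventually_iff, atImInfty_mem] at h1
  obtain ⟨A, hA⟩ := h1
  rw [Filter.eventually_iff, atImInfty_mem]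
  refine ⟨max A 1 + 1, fun z hz => ?_⟩
  have hG : MDiff (fun w : ℍ => F w - c) := hF.sub mdifferentiable_const
  have h2 := norm_deriv_le_of_im_ge hG (M := δ) (A := A) (fun w hw => hA w hw) z hz
  have h3 : deriv ((fun w : ℍ => F w - c) ∘ ofComplex) z = deriv (F ∘ ofComplex) z := by
    have : ((fun w : ℍ => F w - c) ∘ ofComplex) = fun w : ℂ => (F ∘ ofComplex) w - c := rfl
    rw [this, deriv_sub_const]
  rw [h3] at h2
  show dist (D F z) 0 < ε
  rw [dist_zero_right]
  simp only [normalizedDerivOfComplex, norm_mul]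
  have h4 : C * ‖deriv (F ∘ ofComplex) z‖ ≤ C * δ := mul_le_mul_of_nonneg_left h2 hCnn
  have h5 : C * δ < ε := by
    rw [hδ]
    have : C * (ε / (2 * (C + 1))) = ε * (C / (2 * (C + 1))) := by ring
    rw [this]
    have h6 : C / (2 * (C + 1)) < 1 := by
      rw [div_lt_one (by positivity)]
      linarith
    calc ε * (C / (2 * (C + 1))) < ε * 1 := by
          exact mul_lt_mul_of_pos_left h6 hε
      _ = ε := mul_one ε
  exact lt_of_le_of_lt h4 h5

/-- A level-one modular form tends to its constant Fourier coefficient at `i∞`. -/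
theorem tendsto_levelOne {k : ℤ} (f : ModularForm 𝒮ℒ k) :
    Tendsto (f : ℍ → ℂ) atImInfty (𝓝 ((qExpansion 1 f).coeff 0)) := by
  have han := ModularFormClass.analyticAt_cuspFunction_zero f one_pos one_mem_strictPeriods_SL
  have h0 : cuspFunction 1 f 0 = (qExpansion 1 f).coeff 0 := by
    rw [qExpansion_coeff]
    simp
  have h1 := han.continuousAt.tendsto.comp (qParam_tendsto_atImInfty one_pos)
  rw [h0] at h1
  refine h1.congr fun τ => ?_
  exact SlashInvariantFormClass.eq_cuspFunction f τ one_mem_strictPeriods_SL one_ne_zero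

theorem tendsto_E4 : Tendsto (E₄ : ℍ → ℂ) atImInfty (𝓝 1) := by
  have h := tendsto_levelOne E₄
  rwa [EisensteinSeries.E_qExpansion_coeff_zero (k := 4) (by norm_num) ⟨2, rfl⟩] at h

theorem tendsto_E6 : Tendsto (E₆ : ℍ → ℂ) atImInfty (𝓝 1) := by
  have h := tendsto_levelOne E₆
  rwa [EisensteinSeries.E_qExpansion_coeff_zero (k := 6) (by norm_num) ⟨3, rfl⟩] at h

/-- The `q`-expansion of `E₂`, in terms of `Function.Periodic.qParam 1`. -/
theorem hasSum_E2_qParam (τ : ℍ) :
    HasSum (fun m : ℕ ↦ (if m = 0 then 1 else -24 * ArithmeticFunction.sigma 1 m : ℂ) •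
      Function.Periodic.qParam 1 τ ^ m) (E2 τ) := by
  simpa only [Function.Periodic.qParam, Complex.ofReal_one, div_one] using
    hasSum_qExpansion_E2 (z := τ)

/-- `E₂` is `1`-periodic. -/
theorem periodic_E2 : Function.Periodic (E2 ∘ ofComplex) ((1 : ℝ) : ℂ) := by
  intro w
  by_cases hw : 0 < w.im
  · have hw' : 0 < (w + ((1 : ℝ) : ℂ)).im := by simpa using hw
    simp only [Function.comp_apply, ofComplex_apply_of_im_pos hw', ofComplex_apply_of_im_pos hw]
    have h1 := hasSum_E2_qParam ⟨w + ((1 : ℝ) : ℂ), hw'⟩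
    have h2 := hasSum_E2_qParam ⟨w, hw⟩
    have hq : Function.Periodic.qParam 1 (w + ((1 : ℝ) : ℂ)) = Function.Periodic.qParam 1 w := by
      simp only [Function.Periodic.qParam, Complex.ofReal_one, div_one]
      rw [mul_add, Complex.exp_add]
      simp
    rw [hq] at h1
    exact h1.unique h2
  · have hw' : (w + ((1 : ℝ) : ℂ)).im ≤ 0 := by simpa using not_lt.mp hw
    simp only [Function.comp_apply]
    rw [ofComplex_apply_of_im_nonpos hw', ofComplex_apply_of_im_nonpos (not_lt.mp hw)]

/-- `E₂ → 1` at `i∞`. -/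
theorem tendsto_E2 : Tendsto E2 atImInfty (𝓝 1) := by
  have han : AnalyticAt ℂ (cuspFunction 1 E2) 0 :=
    analyticAt_cuspFunction_zero one_pos periodic_E2 E2_mdifferentiable isBoundedAtImInfty_E2
  have hps := hasFPowerSeriesOnBall_cuspFunction one_pos han hasSum_E2_qParam
  have h0 : cuspFunction 1 E2 0 = 1 := by
    have := hps.coeff_zero (fun _ => 0)
    simpa using this.symm
  have h1 := han.continuousAt.tendsto.comp (qParam_tendsto_atImInfty one_pos)
  rw [h0] at h1
  refine h1.congr fun τ => ?_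
  exact eq_cuspFunction τ one_ne_zero periodic_E2

end Fermat.Agent.S24.H78
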