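/-
S24, level-one analytic package (helper78), part 2: Ramanujan's identities
  `D E₄ = (E₂ E₄ - E₆)/3`,  `D E₆ = (E₂ E₆ - E₄²)/2`,  `D Δ = E₂ Δ`
(`D = (2πi)⁻¹ d/dτ`), via the Serre derivative `M_k → M_{k+2}` on level one, `dim M_6 = dim M_8 = 1`
and the limits at `i∞`.
-/
import Fermat.Agent.S24.H78.Limits
import Fermat.Agent.S20.H78.SerreD

set_option autoImplicit false

namespace Fermat.Agent.S24.H78

open UpperHalfPlane ModularForm Filter Topology Matrix.SpecialLinearGroup EisensteinSeries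
open scoped MatrixGroups Manifold ModularForm
open Derivative

/-- The Serre derivative as a map `M_k(SL(2,ℤ)) → M_{k+2}(SL(2,ℤ))`. -/
noncomputable def serreDLevelOne {k : ℤ} (f : ModularForm 𝒮ℒ k) : ModularForm 𝒮ℒ (k + 2) where
  toFun := serreDerivative k f
  slash_action_eq' γ hγ := by
    obtain ⟨γ', rfl⟩ := hγ
    have h : (f : ℍ → ℂ) ∣[k] γ' = f := f.slash_action_eq' (mapGL ℝ γ') ⟨γ', rfl⟩
    exact serreDerivative_slash_invariant f.holo' (γ := γ') h
  holo' := serreDerivative_mdifferentiable k f.holo'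
  bdd_at_cusps' {c} hc := by
    rw [OnePoint.isBoundedAt_iff_forall_SL2Z hc]
    intro γ hγ
    have hb : IsBoundedAtImInfty ((f : ℍ → ℂ) ∣[k] γ) :=
      (OnePoint.isBoundedAt_iff_forall_SL2Z hc).mp (f.bdd_at_cusps' hc) γ hγ
    have hd : MDiff ((f : ℍ → ℂ) ∣[k] γ) := f.holo'.slash k _
    have key := S20.H78.isBoundedAtImInfty_serreDerivative (k : ℂ) hd hb
    have e : serreDerivative (k : ℂ) (f : ℍ → ℂ) ∣[k + 2] γ =
        serreDerivative (k : ℂ) ((f : ℍ → ℂ) ∣[k] γ) :=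
      serreDerivative_slash_equivariant (k := k) (F := (f : ℍ → ℂ)) f.holo' (γ := γ)
    show IsBoundedAtImInfty (serreDerivative (k : ℂ) (f : ℍ → ℂ) ∣[k + 2] γ)
    rw [e]
    exact key

@[simp]
theorem coe_serreDLevelOne {k : ℤ} (f : ModularForm 𝒮ℒ k) :
    (serreDLevelOne f : ℍ → ℂ) = serreDerivative k f := rfl

/-- The limit at `i∞` of the Serre derivative of a holomorphic function with a limit at `i∞`. -/
theorem tendsto_serreDerivative {F : ℍ → ℂ} (hF : MDiff F) {c : ℂ}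
    (hc : Tendsto F atImInfty (𝓝 c)) (k : ℂ) :
    Tendsto (serreDerivative k F) atImInfty (𝓝 (-(k * 12⁻¹ * c))) := by
  have h1 := tendsto_normalizedDeriv_zero hF hc
  have h2 : Tendsto (fun z => k * 12⁻¹ * E2 z * F z) atImInfty (𝓝 (k * 12⁻¹ * 1 * c)) :=
    ((tendsto_const_nhds.mul tendsto_E2).mul hc)
  have h3 := h1.sub h2
  simp only [mul_one, zero_sub] at h3
  exact h3

/-- **Ramanujan's identity** for `E₄`, in Serre-derivative form. -/
theorem serreDerivative_E4 (z : ℍ) : serreDerivative 4 E₄ z = -(1 / 3) * E₆ z := by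
  obtain ⟨c, hc⟩ : ∃ c : ℂ, c • E₆ = (serreDLevelOne E₄).mcast (show ((4 : ℕ) : ℤ) + 2 = ((6 : ℕ) : ℤ) by norm_num) :=
    (finrank_eq_one_iff_of_nonzero' E₆ (E_ne_zero _ ⟨3, rfl⟩)).mp
      (Module.rank_eq_one_iff_finrank_eq_one.mp levelOne_weight_six_rank_one) _
  have hfun : ∀ w : ℍ, c * E₆ w = serreDerivative 4 E₄ w := by
    intro w
    have h := DFunLike.congr_fun hc w
    have e : serreDerivative ((((4 : ℕ) : ℤ)) : ℂ) E₄ w = serreDerivative 4 E₄ w := by norm_num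
    rw [← e]
    exact h
  have hlim1 : Tendsto (fun w : ℍ => c * E₆ w) atImInfty (𝓝 (c * 1)) :=
    tendsto_const_nhds.mul tendsto_E6
  have hlim2 := tendsto_serreDerivative E₄.holo' tendsto_E4 4
  have hc' : c = -(1 / 3) := by
    have := tendsto_nhds_unique (hlim1.congr hfun) hlim2
    rw [mul_one] at this
    rw [this]
    norm_num
  rw [← hfun z, hc']

/-- `E₄²` as a modular form of weight `8`. -/
noncomputable def E4sq : ModularForm 𝒮ℒ ((8 : ℕ) : ℤ) :=
  (E₄.mul E₄).mcast (show ((4 : ℕ) : ℤ) + ((4 : ℕ) : ℤ) = ((8 : ℕ) : ℤ) by norm_num)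

theorem E4sq_apply (z : ℍ) : E4sq z = E₄ z * E₄ z := rfl

theorem E4sq_ne_zero : E4sq ≠ 0 := by
  obtain ⟨z, hz⟩ := DFunLike.ne_iff.mp (E_ne_zero (k := 4) (by norm_num) ⟨2, rfl⟩)
  refine DFunLike.ne_iff.mpr ⟨z, ?_⟩
  rw [E4sq_apply]
  exact mul_ne_zero hz hz

theorem levelOne_weight_eight_rank_one : Module.rank ℂ (ModularForm 𝒮ℒ ((8 : ℕ) : ℤ)) = 1 := by
  rw [dimension_level_one 8 ⟨4, rfl⟩]
  norm_num [Nat.ModEq]

/-- **Ramanujan's identity** for `E₆`, in Serre-derivative form. -/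
theorem serreDerivative_E6 (z : ℍ) : serreDerivative 6 E₆ z = -(1 / 2) * (E₄ z * E₄ z) := by
  obtain ⟨c, hc⟩ : ∃ c : ℂ, c • E4sq =
      (serreDLevelOne E₆).mcast (show ((6 : ℕ) : ℤ) + 2 = ((8 : ℕ) : ℤ) by norm_num) :=
    (finrank_eq_one_iff_of_nonzero' E4sq E4sq_ne_zero).mp
      (Module.rank_eq_one_iff_finrank_eq_one.mp levelOne_weight_eight_rank_one) _
  have hfun : ∀ w : ℍ, c * (E₄ w * E₄ w) = serreDerivative 6 E₆ w := by
    intro w
    have h := DFunLike.congr_fun hc w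
    have e : serreDerivative ((((6 : ℕ) : ℤ)) : ℂ) E₆ w = serreDerivative 6 E₆ w := by norm_num
    rw [← e]
    exact h
  have hlim1 : Tendsto (fun w : ℍ => c * (E₄ w * E₄ w)) atImInfty (𝓝 (c * (1 * 1))) :=
    tendsto_const_nhds.mul (tendsto_E4.mul tendsto_E4)
  have hlim2 := tendsto_serreDerivative E₆.holo' tendsto_E6 6
  have hc' : c = -(1 / 2) := by
    have := tendsto_nhds_unique (hlim1.congr hfun) hlim2
    rw [mul_one, mul_one] at this
    rw [this]
    norm_num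
  rw [← hfun z, hc']

/-- **Ramanujan's identity** `D E₄ = (E₂ E₄ - E₆) / 3`. -/
theorem D_E4 (z : ℍ) : D (E₄ : ℍ → ℂ) z = (E2 z * E₄ z - E₆ z) / 3 := by
  have h := serreDerivative_E4 z
  rw [serreDerivative_apply] at h
  linear_combination h

/-- **Ramanujan's identity** `D E₆ = (E₂ E₆ - E₄²) / 2`. -/
theorem D_E6 (z : ℍ) : D (E₆ : ℍ → ℂ) z = (E2 z * E₆ z - E₄ z ^ 2) / 2 := by
  have h := serreDerivative_E6 z
  rw [serreDerivative_apply] at h
  linear_combination h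

/-- **Ramanujan's identity** `D Δ = E₂ Δ`. -/
theorem D_discriminant (z : ℍ) :
    D (ModularForm.discriminant : ℍ → ℂ) z = E2 z * ModularForm.discriminant z := by
  have hz : (z : ℂ) ∈ upperHalfPlaneSet := z.im_pos
  have hη : DifferentiableAt ℂ eta (z : ℂ) := differentiableAt_eta_of_mem_upperHalfPlaneSet hz
  have hne : eta (z : ℂ) ≠ 0 := eta_ne_zero hz
  have hlog := logDeriv_eta_eq_E2 z
  rw [logDeriv_apply, div_eq_iff hne] at hlog
  have hev : (ModularForm.discriminant ∘ ofComplex) =ᶠ[𝓝 (z : ℂ)] fun w => eta w ^ 24 := by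
    filter_upwards [isOpen_upperHalfPlaneSet.mem_nhds hz] with w hw
    simp [ModularForm.discriminant, ofComplex_apply_of_im_pos hw]
  have hd : deriv (ModularForm.discriminant ∘ ofComplex) (z : ℂ) =
      24 * eta (z : ℂ) ^ 23 * deriv eta (z : ℂ) := by
    rw [hev.deriv_eq]
    have h24 : HasDerivAt (fun w => eta w ^ 24) (24 * eta (z : ℂ) ^ 23 * deriv eta (z : ℂ))
        (z : ℂ) := by
      have := hη.hasDerivAt.fun_pow 24
      simpa using this
    exact h24.deriv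
  have hpi : (2 * (Real.pi : ℂ) * Complex.I) ≠ 0 := by
    simp [Real.pi_ne_zero]
  simp only [normalizedDerivOfComplex, hd, hlog, ModularForm.discriminant]
  field_simp
  ring

end Fermat.Agent.S24.H78
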