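/-
S24, level-one analytic package (helper78), part 3: the `j`-function `Jfun = E₄³/Δ`:
invariance, holomorphy, `Jfun - 1728 = E₆²/Δ`, `D Jfun = -E₄² E₆/Δ`, zeros of `E₄`, `E₆`
(no common zero, simple, `E₆(i) = 0`, `E₄(ρ) = 0`), surjectivity, and the exact local orders
of `Jfun - Jfun τ₀` (`1`, `2` or `3`).
-/
import Fermat.Agent.S24.H78.Ramanujan

set_option autoImplicit false

namespace Fermat.Agent.S24.H78

open UpperHalfPlane ModularForm Filter Topology Matrix.SpecialLinearGroup EisensteinSeries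
open scoped MatrixGroups Manifold ModularForm
open Derivative

local notation "Δ" => ModularForm.discriminant

/-- Function form of level-one slash invariance. -/
theorem levelOne_smul {F : Type*} [FunLike F ℍ ℂ] {k : ℤ} [SlashInvariantFormClass F 𝒮ℒ k]
    (f : F) (γ : SL(2, ℤ)) (z : ℍ) : f (γ • z) = denom γ z ^ k * f z := by
  have h : (f : ℍ → ℂ) ∣[k] γ = f :=
    SlashInvariantFormClass.slash_action_eq f (mapGL ℝ γ) ⟨γ, rfl⟩
  have h2 := congrFun h z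
  rw [ModularForm.SL_slash_apply] at h2
  have hd : denom γ z ≠ 0 := denom_ne_zero γ z
  rw [← h2, mul_comm, mul_assoc, ← zpow_add₀ hd]
  simp

theorem E4_smul (γ : SL(2, ℤ)) (z : ℍ) : E₄ (γ • z) = denom γ z ^ (4 : ℤ) * E₄ z := by
  have := levelOne_smul E₄ γ z
  simpa using this

theorem E6_smul (γ : SL(2, ℤ)) (z : ℍ) : E₆ (γ • z) = denom γ z ^ (6 : ℤ) * E₆ z := by
  have := levelOne_smul E₆ γ z
  simpa using this

theorem discriminant_smul (γ : SL(2, ℤ)) (z : ℍ) : Δ (γ • z) = denom γ z ^ (12 : ℤ) * Δ z :=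
  levelOne_smul CuspForm.discriminant γ z

/-- `1728 Δ = E₄³ - E₆²`. -/
theorem E4_cube_eq (z : ℍ) : E₄ z ^ 3 = 1728 * Δ z + E₆ z ^ 2 := by
  have := discriminant_eq_E₄_cube_sub_E₆_sq z
  linear_combination (-1728 : ℂ) * this

/-- `E₄` and `E₆` have no common zero. -/
theorem E4_E6_no_common_zero (z : ℍ) : ¬ (E₄ z = 0 ∧ E₆ z = 0) := by
  rintro ⟨h4, h6⟩
  have h := E4_cube_eq z
  rw [h4, h6] at h
  have hΔ := discriminant_ne_zero z
  apply hΔ
  have : (1728 : ℂ) * Δ z = 0 := by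
    have h' : (0 : ℂ) ^ 3 = 1728 * Δ z + 0 ^ 2 := h
    simpa using h'.symm
  simpa using this

/-- The `j`-function `E₄³/Δ` on the upper half plane. -/
noncomputable def Jfun (τ : ℍ) : ℂ := E₄ τ ^ 3 / Δ τ

theorem Jfun_smul (γ : SL(2, ℤ)) (τ : ℍ) : Jfun (γ • τ) = Jfun τ := by
  have hd : denom γ τ ≠ 0 := denom_ne_zero γ τ
  have hΔ := discriminant_ne_zero τ
  have h12 : denom γ τ ^ (12 : ℤ) ≠ 0 := zpow_ne_zero 12 hd
  have e : (denom γ τ ^ (4 : ℤ)) ^ 3 = denom γ τ ^ (12 : ℤ) := by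
    rw [← zpow_natCast, ← zpow_mul]
    norm_num
  simp only [Jfun, E4_smul, discriminant_smul]
  rw [mul_pow, e, mul_div_mul_left _ _ h12]

theorem Jfun_sub_1728 (τ : ℍ) : Jfun τ - 1728 = E₆ τ ^ 2 / Δ τ := by
  have hΔ := discriminant_ne_zero τ
  rw [Jfun, E4_cube_eq]
  field_simp
  ring

theorem Jfun_eq_zero_iff (τ : ℍ) : Jfun τ = 0 ↔ E₄ τ = 0 := by
  have hΔ := discriminant_ne_zero τ
  simp [Jfun, hΔ]

theorem Jfun_eq_1728_iff (τ : ℍ) : Jfun τ = 1728 ↔ E₆ τ = 0 := by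
  have hΔ := discriminant_ne_zero τ
  rw [← sub_eq_zero, Jfun_sub_1728]
  simp [hΔ]

/-! ### Holomorphy and the derivative of `Jfun` -/

theorem differentiableAt_E4 (z : ℍ) : DifferentiableAt ℂ ((E₄ : ℍ → ℂ) ∘ ofComplex) (z : ℂ) :=
  UpperHalfPlane.mdifferentiableAt_iff.mp (E₄.holo' z)

theorem differentiableAt_E6 (z : ℍ) : DifferentiableAt ℂ ((E₆ : ℍ → ℂ) ∘ ofComplex) (z : ℂ) :=
  UpperHalfPlane.mdifferentiableAt_iff.mp (E₆.holo' z)

theorem differentiableAt_discriminant (z : ℍ) : DifferentiableAt ℂ (Δ ∘ ofComplex) (z : ℂ) :=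
  UpperHalfPlane.mdifferentiableAt_iff.mp (CuspForm.discriminant.holo' z)

theorem mdifferentiable_Jfun : MDiff Jfun := by
  intro z
  rw [UpperHalfPlane.mdifferentiableAt_iff]
  have h : (Jfun ∘ ofComplex) =
      fun w : ℂ => ((E₄ : ℍ → ℂ) ∘ ofComplex) w ^ 3 / (Δ ∘ ofComplex) w := rfl
  rw [h]
  refine ((differentiableAt_E4 z).pow 3).div (differentiableAt_discriminant z) ?_
  simpa [ofComplex_apply] using discriminant_ne_zero z

theorem two_pi_I_ne_zero : (2 * (Real.pi : ℂ) * Complex.I) ≠ 0 := by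
  simp [Real.pi_ne_zero]

theorem deriv_eq_mul_D (F : ℍ → ℂ) (z : ℍ) :
    deriv (F ∘ ofComplex) (z : ℂ) = (2 * (Real.pi : ℂ) * Complex.I) * D F z := by
  simp only [normalizedDerivOfComplex]
  rw [← mul_assoc, mul_inv_cancel₀ two_pi_I_ne_zero, one_mul]

/-- `D Jfun = -E₄² E₆ / Δ`. -/
theorem D_Jfun (z : ℍ) : D Jfun z = -(E₄ z ^ 2 * E₆ z) / Δ z := by
  have hΔ := discriminant_ne_zero z
  have h : (Jfun ∘ ofComplex) =
      fun w : ℂ => ((E₄ : ℍ → ℂ) ∘ ofComplex) w ^ 3 / (Δ ∘ ofComplex) w := rfl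
  have hΔ' : (Δ ∘ ofComplex) (z : ℂ) ≠ 0 := by simpa [ofComplex_apply] using hΔ
  have hd := (((differentiableAt_E4 z).hasDerivAt.fun_pow 3).fun_div
    (differentiableAt_discriminant z).hasDerivAt hΔ').deriv
  have e4 : ((E₄ : ℍ → ℂ) ∘ ofComplex) (z : ℂ) = E₄ z := by simp [ofComplex_apply]
  have eΔ : (Δ ∘ ofComplex) (z : ℂ) = Δ z := by simp [ofComplex_apply]
  simp only [normalizedDerivOfComplex]
  rw [h, hd, deriv_eq_mul_D, deriv_eq_mul_D, D_E4, D_discriminant, e4, eΔ]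
  have hpi := two_pi_I_ne_zero
  field_simp
  ring

/-- `deriv (Jfun ∘ ofComplex)` vanishes exactly where `Jfun ∈ {0, 1728}`. -/
theorem deriv_Jfun_ne_zero {z : ℍ} (h0 : Jfun z ≠ 0) (h1 : Jfun z ≠ 1728) :
    deriv (Jfun ∘ ofComplex) (z : ℂ) ≠ 0 := by
  have hΔ := discriminant_ne_zero z
  have h4 : E₄ z ≠ 0 := fun h => h0 ((Jfun_eq_zero_iff z).mpr h)
  have h6 : E₆ z ≠ 0 := fun h => h1 ((Jfun_eq_1728_iff z).mpr h)
  rw [deriv_eq_mul_D, D_Jfun]
  refine mul_ne_zero two_pi_I_ne_zero (div_ne_zero (neg_ne_zero.mpr ?_) hΔ)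
  exact mul_ne_zero (pow_ne_zero 2 h4) h6

/-! ### Zeros of `E₄` and `E₆` -/

/-- A level-one form of weight `k` vanishes at a fixed point `z` of `γ` unless
`denom γ z ^ k = 1`. -/
theorem levelOne_eq_zero_of_fixed {F : Type*} [FunLike F ℍ ℂ] {k : ℤ}
    [SlashInvariantFormClass F 𝒮ℒ k] (f : F) (γ : SL(2, ℤ)) (z : ℍ) (hz : γ • z = z)
    (hd : denom γ z ^ k ≠ 1) : f z = 0 := by
  have h := levelOne_smul f γ z
  rw [hz] at h
  have h2 : (denom γ z ^ k - 1) * f z = 0 := by rw [sub_mul, one_mul, ← h, sub_self]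
  rcases mul_eq_zero.mp h2 with h3 | h3
  · exact absurd (sub_eq_zero.mp h3) hd
  · exact h3

theorem E6_I : E₆ UpperHalfPlane.I = 0 := by
  have hS : ModularGroup.S • UpperHalfPlane.I = UpperHalfPlane.I := by
    rw [modular_S_smul]
    ext
    simp [UpperHalfPlane.I]
  refine levelOne_eq_zero_of_fixed E₆ ModularGroup.S UpperHalfPlane.I hS ?_
  have hden : denom ModularGroup.S UpperHalfPlane.I = Complex.I := by
    rw [ModularGroup.denom_S]
    rfl
  rw [hden]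
  have : (Complex.I : ℂ) ^ (6 : ℤ) = -1 := by
    rw [show (6 : ℤ) = ((6 : ℕ) : ℤ) from rfl, zpow_natCast]
    have h2 : (Complex.I : ℂ) ^ 6 = (Complex.I ^ 2) ^ 3 := by ring
    rw [h2, Complex.I_sq]
    norm_num
  rw [this]
  norm_num

theorem Jfun_I : Jfun UpperHalfPlane.I = 1728 := (Jfun_eq_1728_iff _).mpr E6_I

/-- The elliptic point `ρ = e^{2πi/3} = -1/2 + (√3/2) i`. -/
noncomputable def rho : ℍ := ⟨⟨-1 / 2, Real.sqrt 3 / 2⟩, by
  show 0 < Real.sqrt 3 / 2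
  positivity⟩

theorem coe_rho : (rho : ℂ) = ⟨-1 / 2, Real.sqrt 3 / 2⟩ := rfl

theorem rho_sq_add : (rho : ℂ) ^ 2 + (rho : ℂ) + 1 = 0 := by
  have h3 : Real.sqrt 3 * Real.sqrt 3 = 3 := Real.mul_self_sqrt (by norm_num)
  apply Complex.ext
  · simp [coe_rho, pow_two]
    nlinarith
  · simp [coe_rho, pow_two]
    ring

theorem rho_ne_zero : (rho : ℂ) ≠ 0 := by
  intro h
  have := rho_sq_add
  rw [h] at this
  norm_num at this

theorem ST_smul_rho : (ModularGroup.S * ModularGroup.T) • rho = rho := by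
  rw [mul_smul, modular_T_smul, modular_S_smul]
  ext
  rw [UpperHalfPlane.coe_mk, coe_vadd]
  apply inv_eq_of_mul_eq_one_left
  push_cast
  linear_combination -rho_sq_add

theorem denom_ST_rho :
    denom ((ModularGroup.S * ModularGroup.T : SL(2, ℤ)) : GL (Fin 2) ℝ) rho = (rho : ℂ) + 1 := by
  have h10 : ((ModularGroup.S * ModularGroup.T : SL(2, ℤ)) 1 0 : ℤ) = 1 := by decide
  have h11 : ((ModularGroup.S * ModularGroup.T : SL(2, ℤ)) 1 1 : ℤ) = 1 := by decide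
  rw [ModularGroup.denom_apply, h10, h11]
  simp

theorem E4_rho : E₄ rho = 0 := by
  refine levelOne_eq_zero_of_fixed E₄ (ModularGroup.S * ModularGroup.T) rho ST_smul_rho ?_
  rw [denom_ST_rho]
  set u : ℂ := (rho : ℂ) + 1 with hu
  have hu2 : u ^ 2 - u + 1 = 0 := by
    rw [hu]
    linear_combination rho_sq_add
  intro h
  rw [show (4 : ℤ) = ((4 : ℕ) : ℤ) from rfl, zpow_natCast] at h
  have h3 : u ^ 3 = -1 := by linear_combination (u + 1) * hu2
  have h4 : u = -1 := by linear_combination u * h3 - h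
  rw [h4] at hu2
  norm_num at hu2

theorem Jfun_rho : Jfun rho = 0 := (Jfun_eq_zero_iff _).mpr E4_rho

theorem analyticAt_comp_ofComplex {F : ℍ → ℂ} (hF : MDiff F) (τ : ℍ) :
    AnalyticAt ℂ (F ∘ ofComplex) (τ : ℂ) :=
  (UpperHalfPlane.mdifferentiable_iff.mp hF).analyticAt
    (isOpen_upperHalfPlaneSet.mem_nhds τ.im_pos)

/-- Every zero of `E₄` is simple. -/
theorem analyticOrderAt_E4 {z : ℍ} (hz : E₄ z = 0) :
    analyticOrderAt ((E₄ : ℍ → ℂ) ∘ ofComplex) (z : ℂ) = 1 := by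
  have h6 : E₆ z ≠ 0 := fun h => E4_E6_no_common_zero z ⟨hz, h⟩
  have hE : MDiff (E₄ : ℍ → ℂ) := E₄.holo'
  refine (analyticAt_comp_ofComplex hE z).analyticOrderAt_eq_one_of_zero_deriv_ne_zero
    (by simpa [ofComplex_apply] using hz) ?_
  rw [deriv_eq_mul_D, D_E4, hz]
  refine mul_ne_zero two_pi_I_ne_zero ?_
  simp [h6]

/-- Every zero of `E₆` is simple. -/
theorem analyticOrderAt_E6 {z : ℍ} (hz : E₆ z = 0) :
    analyticOrderAt ((E₆ : ℍ → ℂ) ∘ ofComplex) (z : ℂ) = 1 := by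
  have h4 : E₄ z ≠ 0 := fun h => E4_E6_no_common_zero z ⟨h, hz⟩
  have hE : MDiff (E₆ : ℍ → ℂ) := E₆.holo'
  refine (analyticAt_comp_ofComplex hE z).analyticOrderAt_eq_one_of_zero_deriv_ne_zero
    (by simpa [ofComplex_apply] using hz) ?_
  rw [deriv_eq_mul_D, D_E6, hz]
  refine mul_ne_zero two_pi_I_ne_zero ?_
  simp [h4]

/-! ### Local orders of `Jfun - c` -/

theorem analyticAt_discriminant_inv (z : ℍ) :
    AnalyticAt ℂ (fun w : ℂ => ((Δ ∘ ofComplex) w)⁻¹) (z : ℂ) :=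
  (analyticAt_comp_ofComplex CuspForm.discriminant.holo' z).inv
    (by simpa [ofComplex_apply] using discriminant_ne_zero z)

theorem analyticOrderAt_discriminant_inv (z : ℍ) :
    analyticOrderAt (fun w : ℂ => ((Δ ∘ ofComplex) w)⁻¹) (z : ℂ) = 0 := by
  rw [(analyticAt_discriminant_inv z).analyticOrderAt_eq_zero]
  simpa [ofComplex_apply] using discriminant_ne_zero z

/-- At a point where `Jfun ∉ {0, 1728}`, `Jfun - Jfun τ₀` has a simple zero. -/
theorem analyticOrderAt_Jfun_sub_of_ne {τ₀ : ℍ} (h0 : Jfun τ₀ ≠ 0) (h1 : Jfun τ₀ ≠ 1728) :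
    analyticOrderAt (fun z : ℂ => Jfun (ofComplex z) - Jfun τ₀) (τ₀ : ℂ) = 1 := by
  have h := (analyticAt_comp_ofComplex mdifferentiable_Jfun τ₀).analyticOrderAt_sub_eq_one_of_deriv_ne_zero
    (deriv_Jfun_ne_zero h0 h1)
  simpa [ofComplex_apply] using h

/-- At a zero of `Jfun` (i.e. of `E₄`), `Jfun` vanishes to order exactly `3`. -/
theorem analyticOrderAt_Jfun_of_eq_zero {τ₀ : ℍ} (h0 : Jfun τ₀ = 0) :
    analyticOrderAt (fun z : ℂ => Jfun (ofComplex z) - Jfun τ₀) (τ₀ : ℂ) = 3 := by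
  have h4 : E₄ τ₀ = 0 := (Jfun_eq_zero_iff τ₀).mp h0
  have hfun : (fun z : ℂ => Jfun (ofComplex z) - Jfun τ₀) =
      (((E₄ : ℍ → ℂ) ∘ ofComplex) ^ 3) * (fun w : ℂ => ((Δ ∘ ofComplex) w)⁻¹) := by
    funext w
    rw [h0, sub_zero]
    simp [Jfun, div_eq_mul_inv]
  have hE' : MDiff (E₄ : ℍ → ℂ) := E₄.holo'
  have hE := analyticAt_comp_ofComplex hE' τ₀
  rw [hfun, analyticOrderAt_mul (hE.pow 3) (analyticAt_discriminant_inv τ₀),
    analyticOrderAt_pow hE, analyticOrderAt_E4 h4, analyticOrderAt_discriminant_inv]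
  norm_num

/-- At a point where `Jfun = 1728` (i.e. a zero of `E₆`), `Jfun - 1728` vanishes to order
exactly `2`. -/
theorem analyticOrderAt_Jfun_of_eq_1728 {τ₀ : ℍ} (h1 : Jfun τ₀ = 1728) :
    analyticOrderAt (fun z : ℂ => Jfun (ofComplex z) - Jfun τ₀) (τ₀ : ℂ) = 2 := by
  have h6 : E₆ τ₀ = 0 := (Jfun_eq_1728_iff τ₀).mp h1
  have hfun : (fun z : ℂ => Jfun (ofComplex z) - Jfun τ₀) =
      (((E₆ : ℍ → ℂ) ∘ ofComplex) ^ 2) * (fun w : ℂ => ((Δ ∘ ofComplex) w)⁻¹) := by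
    funext w
    rw [h1, Jfun_sub_1728]
    simp [div_eq_mul_inv]
  have hE' : MDiff (E₆ : ℍ → ℂ) := E₆.holo'
  have hE := analyticAt_comp_ofComplex hE' τ₀
  rw [hfun, analyticOrderAt_mul (hE.pow 2) (analyticAt_discriminant_inv τ₀),
    analyticOrderAt_pow hE, analyticOrderAt_E6 h6, analyticOrderAt_discriminant_inv]
  norm_num

/-! ### Surjectivity of `Jfun` -/

/-- A holomorphic function on `ℍ` transforming like a level-one form of positive weight, with a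
nonzero limit at `i∞`, has a zero (otherwise its inverse is a nonzero level-one form of negative
weight). -/
theorem exists_zero_of_invariant {k : ℤ} (hk : 0 < k) (G : ℍ → ℂ) (hG : MDiff G)
    (hinv : ∀ (γ : SL(2, ℤ)) (z : ℍ), G (γ • z) = denom γ z ^ k * G z) {c : ℂ} (hc : c ≠ 0)
    (hlim : Tendsto G atImInfty (𝓝 c)) : ∃ z, G z = 0 := by
  by_contra hne
  push Not at hne
  have hslash : ∀ γ : SL(2, ℤ), (fun z => (G z)⁻¹) ∣[-k] γ = fun z => (G z)⁻¹ := by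
    intro γ
    ext z
    have hd : denom γ z ≠ 0 := denom_ne_zero γ z
    rw [ModularForm.SL_slash_apply, hinv, neg_neg, mul_inv, mul_comm, ← mul_assoc,
      mul_inv_cancel₀ (zpow_ne_zero k hd), one_mul]
  let h : ModularForm 𝒮ℒ (-k) :=
    { toFun := fun z => (G z)⁻¹
      slash_action_eq' := by
        intro γ hγ
        obtain ⟨γ', rfl⟩ := hγ
        exact hslash γ'
      holo' := by
        rw [UpperHalfPlane.mdifferentiable_iff]
        have hG' := UpperHalfPlane.mdifferentiable_iff.mp hG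
        exact hG'.inv (fun w _ => hne (ofComplex w))
      bdd_at_cusps' := by
        intro c' hc'
        rw [OnePoint.isBoundedAt_iff_forall_SL2Z hc']
        intro γ _
        rw [hslash γ]
        exact (hlim.inv₀ hc).isBigO_one ℝ }
  have h0 := ModularFormClass.levelOne_neg_weight_eq_zero (by omega : -k < 0) h
  have h1 : (G UpperHalfPlane.I)⁻¹ = 0 := congrFun h0 UpperHalfPlane.I
  exact inv_ne_zero (hne UpperHalfPlane.I) h1

/-- The `j`-function is surjective onto `ℂ`. -/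
theorem Jfun_surjective : Function.Surjective Jfun := by
  intro c
  have hE : MDiff (E₄ : ℍ → ℂ) := E₄.holo'
  have hΔ : MDiff (Δ : ℍ → ℂ) := CuspForm.discriminant.holo'
  have hG : MDiff (fun z : ℍ => E₄ z ^ 3 - c * Δ z) :=
    (hE.pow 3).sub (mdifferentiable_const.mul hΔ)
  have hinv : ∀ (γ : SL(2, ℤ)) (z : ℍ),
      E₄ (γ • z) ^ 3 - c * Δ (γ • z) = denom γ z ^ (12 : ℤ) * (E₄ z ^ 3 - c * Δ z) := by
    intro γ z
    have e : (denom γ z ^ (4 : ℤ)) ^ 3 = denom γ z ^ (12 : ℤ) := by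
      rw [← zpow_natCast, ← zpow_mul]
      norm_num
    rw [E4_smul, discriminant_smul, mul_pow, e]
    ring
  have hlim : Tendsto (fun z : ℍ => E₄ z ^ 3 - c * Δ z) atImInfty (𝓝 (1 ^ 3 - c * 0)) :=
    (tendsto_E4.pow 3).sub (tendsto_const_nhds.mul discriminant_isZeroAtImInfty)
  have hc1 : (1 : ℂ) ^ 3 - c * 0 ≠ 0 := by norm_num
  obtain ⟨z, hz⟩ := exists_zero_of_invariant (by norm_num : (0 : ℤ) < 12) _ hG hinv hc1 hlim
  refine ⟨z, ?_⟩
  have hΔz := discriminant_ne_zero z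
  rw [Jfun, div_eq_iff hΔz]
  linear_combination hz

end Fermat.Agent.S24.H78
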