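/-
S24 (helper78): the level-one `j`-facts of `H78/Jfun.lean` restated for the coordinator's
`Fermat.Agent.S24.Jfun` of `ModDefs.lean` (the two definitions agree by `rfl`):
surjectivity (AN-JSURJ), invariance, holomorphy, special values, and the exact local orders
`3`, `2`, `1` of `Jfun - Jfun τ₀` (AN-JDERIV).
-/
import Fermat.Agent.S24.ModDefs
import Fermat.Agent.S24.H78.Jfun

set_option autoImplicit false

namespace Fermat.Agent.S24.H78

open UpperHalfPlane ModularForm EisensteinSeries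
open scoped MatrixGroups Manifold ModularForm

/-- The coordinator's `Jfun` is this package's `Jfun`. -/
theorem modJ_eq : Fermat.Agent.S24.Jfun = Jfun := rfl

/-- AN-JSURJ: the `j`-function `E₄³/Δ` is surjective onto `ℂ`. -/
theorem modJ_surjective : Function.Surjective Fermat.Agent.S24.Jfun := Jfun_surjective

theorem modJ_smul (γ : SL(2, ℤ)) (τ : ℍ) :
    Fermat.Agent.S24.Jfun (γ • τ) = Fermat.Agent.S24.Jfun τ := Jfun_smul γ τ

theorem mdifferentiable_modJ : MDiff Fermat.Agent.S24.Jfun := mdifferentiable_Jfun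

theorem modJ_sub_1728 (τ : ℍ) :
    Fermat.Agent.S24.Jfun τ - 1728 = E₆ τ ^ 2 / ModularForm.discriminant τ := Jfun_sub_1728 τ

theorem modJ_eq_zero_iff (τ : ℍ) : Fermat.Agent.S24.Jfun τ = 0 ↔ E₄ τ = 0 := Jfun_eq_zero_iff τ

theorem modJ_eq_1728_iff (τ : ℍ) : Fermat.Agent.S24.Jfun τ = 1728 ↔ E₆ τ = 0 :=
  Jfun_eq_1728_iff τ

theorem modJ_I : Fermat.Agent.S24.Jfun UpperHalfPlane.I = 1728 := Jfun_I

theorem modJ_rho : Fermat.Agent.S24.Jfun rho = 0 := Jfun_rho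

/-- AN-JDERIV: at a point with `Jfun τ₀ ∉ {0, 1728}` the function `Jfun - Jfun τ₀` has a
simple zero. -/
theorem analyticOrderAt_modJ_sub_of_ne {τ₀ : ℍ} (h0 : Fermat.Agent.S24.Jfun τ₀ ≠ 0)
    (h1 : Fermat.Agent.S24.Jfun τ₀ ≠ 1728) :
    analyticOrderAt (fun z : ℂ => Fermat.Agent.S24.Jfun (ofComplex z) - Fermat.Agent.S24.Jfun τ₀)
      (τ₀ : ℂ) = 1 :=
  analyticOrderAt_Jfun_sub_of_ne h0 h1

/-- AN-JDERIV: at a zero of `Jfun` the order is exactly `3`. -/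
theorem analyticOrderAt_modJ_of_eq_zero {τ₀ : ℍ} (h0 : Fermat.Agent.S24.Jfun τ₀ = 0) :
    analyticOrderAt (fun z : ℂ => Fermat.Agent.S24.Jfun (ofComplex z) - Fermat.Agent.S24.Jfun τ₀)
      (τ₀ : ℂ) = 3 :=
  analyticOrderAt_Jfun_of_eq_zero h0

/-- AN-JDERIV: at a point with `Jfun τ₀ = 1728` the order is exactly `2`. -/
theorem analyticOrderAt_modJ_of_eq_1728 {τ₀ : ℍ} (h1 : Fermat.Agent.S24.Jfun τ₀ = 1728) :
    analyticOrderAt (fun z : ℂ => Fermat.Agent.S24.Jfun (ofComplex z) - Fermat.Agent.S24.Jfun τ₀)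
      (τ₀ : ℂ) = 2 :=
  analyticOrderAt_Jfun_of_eq_1728 h1

/-- The derivative of `Jfun ∘ ofComplex` does not vanish away from the fibres over `0`
and `1728`. -/
theorem deriv_modJ_ne_zero {τ₀ : ℍ} (h0 : Fermat.Agent.S24.Jfun τ₀ ≠ 0)
    (h1 : Fermat.Agent.S24.Jfun τ₀ ≠ 1728) :
    deriv (Fermat.Agent.S24.Jfun ∘ ofComplex) (τ₀ : ℂ) ≠ 0 :=
  deriv_Jfun_ne_zero h0 h1

end Fermat.Agent.S24.H78
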